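/-
Programme T1B, brick 589 (G3 LIFT0), helper69 — **the classical `U_q` on the Tate module**
(`q ∣ M`): if an endomorphism `f` of `J` corresponds to `U_q` on characters (`UqX`, cocycle
`UqOp28.cocU`, representatives `β_j = !![1, j; 0, q]`) under the Kummer maps of a `KummerSystem`,
then the comparison `ι₀ = TateCompare11.iota : Λ → T_p J` intertwines `UqOp28.UqPar` on `Λ` with
`T_p f`.

This is the twin of `UtTate` (there: `U_q^t = W U_q W`), for the orientation
`U_q = β_* α^* = heckePic0BarTranspose` of the correspondence on `J₀(M)`.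
-/
import Mathlib
import Fermat.Agent.ES.J.TateCompare11
import Fermat.Agent.ES.LR.UqOp28

set_option autoImplicit false
set_option linter.unusedSectionVars false

open CongruenceSubgroup ModularCurve.Period
open scoped MatrixGroups

noncomputable section

namespace Fermat.Agent.T1B.Lift69.UqTate

open Fermat.Agent.ES.J.TateModule13 Fermat.Agent.ES.J.TateChar11 Fermat.Agent.ES.J.TateCompare11
open Fermat.Agent.ES.HEQ.ParLattice11
open Fermat.Agent.ES.LR.UqOp28

variable {p : ℕ} [hp : Fact p.Prime] {q : ℕ} [hq : Fact q.Prime] {M : ℕ} [NeZero M]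
  (hqM : q ∣ M)

/-- `U_q` on characters `Γ₀(M) →* G`. -/
def UqMul {G : Type*} [CommGroup G] (χ : Gamma0 M →* G) : Gamma0 M →* G :=
  MonoidHom.toAdditive.symm (UqAdd hqM (MonoidHom.toAdditive χ))

theorem UqMul_apply {G : Type*} [CommGroup G] (χ : Gamma0 M →* G) (γ : Gamma0 M) :
    UqMul hqM χ γ = ∏ j : ZMod q, χ (cocU hqM γ j) := by
  show Additive.toMul (UqAdd hqM (MonoidHom.toAdditive χ) (Additive.ofMul γ)) = _
  rw [UqAdd_apply, toMul_sum]
  rfl

theorem UqMul_one {G : Type*} [CommGroup G] : UqMul hqM (1 : Gamma0 M →* G) = 1 := by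
  ext γ
  rw [UqMul_apply]
  simp

theorem UqMul_mul {G : Type*} [CommGroup G] (χ ψ : Gamma0 M →* G) :
    UqMul hqM (χ * ψ) = UqMul hqM χ * UqMul hqM ψ := by
  ext γ
  rw [MonoidHom.mul_apply, UqMul_apply, UqMul_apply, UqMul_apply, ← Finset.prod_mul_distrib]
  rfl

/-- `U_q` on the characters of `Γ₀(M)`, additively. -/
def UqX : X (Gamma0 M) →+ X (Gamma0 M) where
  toFun χ := Additive.ofMul (UqMul hqM (Additive.toMul χ))
  map_zero' := by
    show Additive.ofMul (UqMul hqM (1 : Gamma0 M →* ℂˣ)) = 0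
    rw [UqMul_one]; rfl
  map_add' χ ψ := by
    show Additive.ofMul (UqMul hqM (Additive.toMul χ * Additive.toMul ψ))
      = Additive.ofMul (UqMul hqM (Additive.toMul χ))
        + Additive.ofMul (UqMul hqM (Additive.toMul ψ))
    rw [UqMul_mul]; rfl

theorem UqX_apply (χ : X (Gamma0 M)) (γ : Gamma0 M) :
    (Additive.toMul (UqX hqM χ)) γ = ∏ j : ZMod q, (Additive.toMul χ) (cocU hqM γ j) :=
  UqMul_apply hqM (Additive.toMul χ) γ

/-- `fullEquiv` intertwines `U_q` on characters with `UqAdd` on `Hom(Γ₀(M), ℤ_p)`. -/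
theorem fullEquiv_Uq (x : TateModule p (X (Gamma0 M))) :
    fullEquiv p (Gamma0 M) (map (UqX hqM) x) = UqAdd hqM (fullEquiv p (Gamma0 M) x) := by
  refine AddMonoidHom.ext fun γ => ?_
  have h := fullEquiv_map_of_prod (p := p) (Finset.univ : Finset (ZMod q))
    (fun j γ => cocU hqM γ j) (UqX hqM) (fun χ γ => UqX_apply hqM χ γ) x (Additive.toMul γ)
  exact h

variable {J : Type*} [AddCommGroup J] (KS : KummerSystem p (Gamma0 M) J)

/-- **`U_q`-equivariance of `tateEquiv`.** -/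
theorem tateEquiv_map_Uq (f : J →+ J)
    (hf : ∀ (k : ℕ) (x : ↥(tors J (p ^ k))) (hfx : f (x : J) ∈ tors J (p ^ k)),
      KS.κ k ⟨f (x : J), hfx⟩ = UqX hqM (KS.κ k x))
    (x : TateModule p J) :
    ((KS.tateEquiv (map f x) : ↥(parabolicHoms ℤ_[p] (Gamma0 M) ℤ_[p])) :
        Additive (Gamma0 M) →+ ℤ_[p])
      = UqAdd hqM (KS.tateEquiv x : Additive (Gamma0 M) →+ ℤ_[p]) := by
  rw [KummerSystem.tateEquiv_apply, KummerSystem.tateEquiv_apply, coe_parEquiv, coe_parEquiv,
    ← fullEquiv_Uq]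
  congr 1
  apply TateModule.ext'
  intro k
  show KS.κ k (KummerSystem.comp (map f x) k) = UqX hqM (KS.κ k (KummerSystem.comp x k))
  rw [← hf k (KummerSystem.comp x k)
    (by
      show f (proj k x) ∈ _
      rw [← proj_map]
      exact KummerSystem.proj_mem_tors _ k)]
  rfl

/-- `castPar` intertwines `UqPar`. -/
theorem castPar_UqPar (R : Type*) [Ring R] (φ : ↥(parabolicHoms ℤ (Gamma0 M) ℤ)) :
    castPar (Gamma0 M) R (UqPar hqM ℤ ℤ φ) = UqPar hqM R R (castPar (Gamma0 M) R φ) := by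
  apply Subtype.ext
  rw [coe_UqPar]
  exact (UqAdd_comp hqM (Int.castAddHom R) (φ : Additive (Gamma0 M) →+ ℤ)).symm

/-- **`ι₀` intertwines `U_q` on `Λ` with the operator induced on `T_p J`** by an endomorphism `f`
of `J` which corresponds to `U_q` under the Kummer maps. -/
theorem map_iota_Uq (f : J →+ J)
    (hf : ∀ (k : ℕ) (x : ↥(tors J (p ^ k))) (hfx : f (x : J) ∈ tors J (p ^ k)),
      KS.κ k ⟨f (x : J), hfx⟩ = UqX hqM (KS.κ k x))
    (φ : ↥(parabolicHoms ℤ (Gamma0 M) ℤ)) :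
    map f (iota KS φ) = iota KS (UqPar hqM ℤ ℤ φ) := by
  apply KS.tateEquiv.injective
  apply Subtype.ext
  rw [tateEquiv_map_Uq hqM KS f hf, tateEquiv_iota, tateEquiv_iota, castPar_UqPar, coe_UqPar]

end Fermat.Agent.T1B.Lift69.UqTate
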