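/-
Programme T1B, brick 589 (G3 LIFT0), helper69 — **a `ℤ`-lattice inside its `ℤ_p`-base change**
(Mathlib only).  `Λ` free over `ℤ` with basis `b`, `T` free over `ℤ_p` with basis `B`,
`ι : Λ →ₗ[ℤ] T` with `B i = ι (b i)`.  Then

* `exists_approx` : every `y : T` is `ι l + p • z` (`Λ/pΛ → T/pT` is surjective);
* `eq_smul_of_map_eq_smul` : `ι m ∈ p T ⇒ m ∈ p Λ` (`Λ/pΛ → T/pT` is injective).
-/
import Mathlib

set_option autoImplicit false

namespace Fermat.Agent.T1B.Lift69.BCPure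

variable {p : ℕ} [hp : Fact p.Prime] {Λ T : Type*} [AddCommGroup Λ] [AddCommGroup T]
  [Module ℤ_[p] T] {n : Type*} [Fintype n] (b : Module.Basis n ℤ Λ)
  (B : Module.Basis n ℤ_[p] T) (ι : Λ →ₗ[ℤ] T) (hB : ∀ i, B i = ι (b i))

/-- Every `p`-adic integer is an integer plus a multiple of `p`. -/
theorem exists_eq_natCast_add (a : ℤ_[p]) : ∃ c : ℤ_[p], a = (a.zmodRepr : ℤ_[p]) + (p : ℤ_[p]) * c := by
  have h := PadicInt.sub_zmodRepr_mem a
  rw [PadicInt.maximalIdeal_eq_span_p, Ideal.mem_span_singleton'] at h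
  obtain ⟨c, hc⟩ := h
  exact ⟨c, by rw [mul_comm, hc]; ring⟩

include hB in
/-- `Λ/pΛ → T/pT` is surjective. -/
theorem exists_approx (y : T) : ∃ (l : Λ) (z : T), y = ι l + (p : ℤ_[p]) • z := by
  classical
  choose c hc using fun i : n => exists_eq_natCast_add (B.repr y i)
  refine ⟨∑ i, ((B.repr y i).zmodRepr : ℤ) • b i, ∑ i, c i • B i, ?_⟩
  rw [map_sum, Finset.smul_sum, ← Finset.sum_add_distrib]
  conv_lhs => rw [← B.sum_repr y]
  refine Finset.sum_congr rfl fun i _ => ?_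
  rw [map_smul, ← hB i, smul_smul, ← Int.cast_smul_eq_zsmul ℤ_[p], Int.cast_natCast, ← add_smul]
  congr 1
  exact hc i

include hB in
/-- `Λ/pΛ → T/pT` is injective. -/
theorem eq_smul_of_map_eq_smul (m : Λ) (z : T) (h : ι m = (p : ℤ_[p]) • z) :
    ∃ m' : Λ, m = (p : ℤ) • m' := by
  classical
  have h1 : ι m = ∑ i, ((b.repr m i : ℤ) : ℤ_[p]) • B i := by
    conv_lhs => rw [← b.sum_repr m]
    rw [map_sum]
    refine Finset.sum_congr rfl fun i _ => ?_
    rw [map_smul, ← hB i, Int.cast_smul_eq_zsmul]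
  have h2 : ∀ i, ((b.repr m i : ℤ) : ℤ_[p]) = (p : ℤ_[p]) * B.repr z i := by
    intro i
    have h3 := congrArg (fun t => B.repr t i) h
    simp only [map_smul, Finsupp.smul_apply, smul_eq_mul] at h3
    rw [← h3, h1, B.repr_sum_self]
  have h4 : ∀ i, (p : ℤ) ∣ b.repr m i := by
    intro i
    have h5 := congrArg (PadicInt.toZMod (p := p)) (h2 i)
    rw [map_intCast, map_mul, map_natCast, ZMod.natCast_self, zero_mul] at h5
    exact (ZMod.intCast_zmod_eq_zero_iff_dvd _ p).mp h5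
  choose k hk using h4
  refine ⟨∑ i, k i • b i, ?_⟩
  conv_lhs => rw [← b.sum_repr m]
  rw [Finset.smul_sum]
  refine Finset.sum_congr rfl fun i _ => ?_
  rw [smul_smul, ← hk i]

end Fermat.Agent.T1B.Lift69.BCPure
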