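/-
Programme T1B, brick 589 (G3 LIFT0), helper69 — abstract part 1: **Deligne–Serre lifting for an
ideal of the polynomial ring.**

`X` a finite free `ℤ`-module with a commuting family `TX i` of endomorphisms (`polyAct` of
`ES/LR/DSNew8`), `I` a PROPER ideal of `ℤ[X_i]` containing every polynomial which kills `X`.  Then
there is a common eigenvector `u ≠ 0` in `ℂ ⊗ X` with eigenvalues `lam i` (algebraic integers) and a
maximal ideal `𝔪'` of the algebraic integers with `s(lam) ∈ 𝔪'` for every `s ∈ I`.

(`DSNew8.exists_eigensystem_of_ann` is the special case of the kernel of a character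
`ℤ[X_i] → ZMod p`; here the ideal is arbitrary: it is applied to the annihilator of a nonzero vector
of `X/pX`, which need not be an eigenvector of all the `TX i`.)
-/
import Mathlib
import Fermat.Agent.S49.CommAlg
import Fermat.Agent.ES.LR.DSNew8

set_option autoImplicit false

open scoped TensorProduct

namespace Fermat.Agent.T1B.Lift69.DSIdeal

open Fermat.Agent.ES.LR.DSNew8

variable {X : Type*} [AddCommGroup X] [Module.Free ℤ X] [Module.Finite ℤ X]
  {ι : Type*} (TX : ι → Module.End ℤ X) (hTX : ∀ i j, Commute (TX i) (TX j))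

/-- **Deligne–Serre lifting for a proper ideal** of `ℤ[X_i]` containing the annihilator of `X`. -/
theorem exists_eigensystem_of_ideal (I : Ideal (MvPolynomial ι ℤ)) (hI : I ≠ ⊤)
    (hAnn : ∀ s : MvPolynomial ι ℤ, polyAct TX hTX s = 0 → s ∈ I) :
    ∃ (lam : ι → integralClosure ℤ ℂ) (𝔪' : Ideal (integralClosure ℤ ℂ)) (u : ℂ ⊗[ℤ] X),
      𝔪'.IsMaximal ∧ u ≠ 0 ∧
      (∀ i, (TX i).baseChange ℂ u = ((lam i : integralClosure ℤ ℂ) : ℂ) • u) ∧
      ∀ s ∈ I, MvPolynomial.aeval lam s ∈ 𝔪' := by
  classical
  -- a maximal ideal above `I`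
  obtain ⟨P, hPmax, hIP⟩ := Ideal.exists_le_maximal I hI
  -- the quotient ring acting faithfully on `X`
  let ρK : MvPolynomial ι ℤ →+* Module.End ℤ X := (polyAct TX hTX : _ →+* _)
  let A := MvPolynomial ι ℤ ⧸ RingHom.ker ρK
  let ρb : A →+* Module.End ℤ X := RingHom.kerLift ρK
  have hρb : Function.Injective ρb := RingHom.kerLift_injective ρK
  have : Module.Finite ℤ A :=
    Module.Finite.of_injective (ρb.toIntAlgHom.toLinearMap) hρb
  have hkerP : RingHom.ker ρK ≤ P := fun s hs => hIP (hAnn s (RingHom.mem_ker.mp hs))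
  -- the image of `P` in the quotient is prime
  let mk : MvPolynomial ι ℤ →+* A := Ideal.Quotient.mk (RingHom.ker ρK)
  have hmk : Function.Surjective mk := Ideal.Quotient.mk_surjective
  have hPprime : P.IsPrime := hPmax.isPrime
  have hPbar : (P.map mk).IsPrime := by
    apply Ideal.map_isPrime_of_surjective hmk
    rw [Ideal.mk_ker]
    exact hkerP
  -- the complex representation
  let ρ : A →+* Module.End ℂ (ℂ ⊗[ℤ] X) :=
    ((Module.End.baseChangeHom ℤ ℂ X : _ →ₐ[ℤ] _) : _ →+* _).comp ρb
  have hρ : Function.Injective ρ := (baseChangeHom_injective X).comp hρb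
  obtain ⟨w, χ, 𝔪', hw, heig, hmax, hle⟩ :=
    Fermat.Agent.S49.exists_eigenvector_lift ρ hρ (P.map mk)
  refine ⟨fun i => χ (mk (MvPolynomial.X i)), 𝔪', w, hmax, hw, ?_, ?_⟩
  · intro i
    have := heig (mk (MvPolynomial.X i))
    rw [← this]
    have e1 : ρ (mk (MvPolynomial.X i)) = (TX i).baseChange ℂ := by
      change Module.End.baseChangeHom ℤ ℂ X (ρb (mk (MvPolynomial.X i))) = _
      rw [baseChangeHom_eq]
      congr 1
      change RingHom.kerLift ρK (Ideal.Quotient.mk _ (MvPolynomial.X i)) = _
      rw [RingHom.kerLift_mk]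
      exact polyAct_X TX hTX i
    rw [e1]
  · intro s hs
    have h1 : mk s ∈ P.map mk := Ideal.mem_map_of_mem mk (hIP hs)
    have h2 := hle h1
    rw [Ideal.mem_comap] at h2
    have h3 : χ (mk s) = MvPolynomial.aeval (fun i => χ (mk (MvPolynomial.X i))) s := by
      have h4 : (χ.comp mk).toIntAlgHom =
          MvPolynomial.aeval (fun i => χ (mk (MvPolynomial.X i))) := by
        apply MvPolynomial.algHom_ext
        intro i
        rw [MvPolynomial.aeval_X]
        rfl
      have := congrArg (fun f : MvPolynomial ι ℤ →ₐ[ℤ] integralClosure ℤ ℂ => f s) h4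
      exact this
    rw [← h3]
    exact h2

end Fermat.Agent.T1B.Lift69.DSIdeal
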