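/-
Programme T1B, EMBED44 half (i) (OCC), helper69 — **descent of a mod-`p` eigenvector to the prime
field** (Mathlib only).

`M` finite free over `ℤ` (basis `b`), `k` a field of characteristic `p`, `v ≠ 0` in `k ⊗[ℤ] M`.
Then there is `l ∈ M ∖ pM` such that every eigen-relation `T v = t v` with `T ∈ End_ℤ M` and an
INTEGER eigenvalue `t` descends to `T l ≡ t l mod pM` (`exists_descent`).

(Choose an `𝔽_p`-linear functional `λ` on `k` not vanishing on some coordinate of `v` and lift the
vector `λ(coordinates of v) ∈ 𝔽_p^r` to `M`.)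
-/
import Mathlib

set_option autoImplicit false
set_option linter.unusedSectionVars false

open scoped TensorProduct

noncomputable section

namespace Fermat.Agent.T1B.Lift69.Desc

variable {M : Type*} [AddCommGroup M] {ι : Type*} [Fintype ι] [DecidableEq ι]
  (b : Module.Basis ι ℤ M)

/-- the vector of `R ⊗ M` with coordinates `d` in the basis `1 ⊗ b i`. -/
def vec (R : Type*) [CommRing R] (d : ι → R) : R ⊗[ℤ] M := ∑ i, d i • ((1 : R) ⊗ₜ[ℤ] b i)

/-- the integer matrix of an endomorphism. -/
def mat (T : Module.End ℤ M) (k i : ι) : ℤ := b.repr (T (b i)) k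

theorem vec_eq (R : Type*) [CommRing R] (d : ι → R) :
    vec b R d = (Algebra.TensorProduct.basis R b).equivFun.symm d := by
  rw [Module.Basis.equivFun_symm_apply]
  simp only [Algebra.TensorProduct.basis_apply]
  rfl

theorem vec_injective (R : Type*) [CommRing R] : Function.Injective (vec b R) := by
  intro d d' h
  rw [vec_eq, vec_eq] at h
  exact (Algebra.TensorProduct.basis R b).equivFun.symm.injective h

theorem exists_vec (R : Type*) [CommRing R] (v : R ⊗[ℤ] M) : ∃ d, v = vec b R d :=
  ⟨(Algebra.TensorProduct.basis R b).equivFun v, by rw [vec_eq, LinearEquiv.symm_apply_apply]⟩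

theorem vec_smul (R : Type*) [CommRing R] (r : R) (d : ι → R) :
    r • vec b R d = vec b R (fun k => r * d k) := by
  unfold vec
  rw [Finset.smul_sum]
  simp_rw [smul_smul]

theorem vec_zero (R : Type*) [CommRing R] : vec b R (fun _ => (0 : R)) = 0 := by
  unfold vec
  simp

theorem apply_basis (T : Module.End ℤ M) (i : ι) : T (b i) = ∑ k, mat b T k i • b k := by
  conv_lhs => rw [← b.sum_repr (T (b i))]
  rfl

theorem baseChange_vec (R : Type*) [CommRing R] (T : Module.End ℤ M) (d : ι → R) :
    T.baseChange R (vec b R d) = vec b R (fun k => ∑ i, (mat b T k i : R) * d i) := by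
  have key : ∀ i, (1 : R) ⊗ₜ[ℤ] T (b i) = ∑ k, (mat b T k i : R) • ((1 : R) ⊗ₜ[ℤ] b k) := by
    intro i
    conv_lhs => rw [← b.sum_repr (T (b i))]
    rw [TensorProduct.tmul_sum]
    refine Finset.sum_congr rfl fun k _ => ?_
    rw [TensorProduct.tmul_smul, Int.cast_smul_eq_zsmul]
    rfl
  unfold vec
  rw [map_sum]
  simp_rw [map_smul, LinearMap.baseChange_tmul, key, Finset.smul_sum, smul_smul]
  rw [Finset.sum_comm]
  refine Finset.sum_congr rfl fun k _ => ?_
  rw [Finset.sum_smul]
  refine Finset.sum_congr rfl fun i _ => ?_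
  rw [mul_comm]

/-- `T (∑ e_i b_i) = ∑_k (∑_i mat_{k i} e_i) b_k`. -/
theorem apply_sum (T : Module.End ℤ M) (e : ι → ℤ) :
    T (∑ i, e i • b i) = ∑ k, (∑ i, mat b T k i * e i) • b k := by
  rw [map_sum]
  simp_rw [map_zsmul, apply_basis b T, Finset.smul_sum, smul_smul]
  rw [Finset.sum_comm]
  refine Finset.sum_congr rfl fun k _ => ?_
  rw [Finset.sum_smul]
  refine Finset.sum_congr rfl fun i _ => ?_
  rw [mul_comm]

include b in
/-- **Descent to the prime field** (with a basis). -/
theorem exists_descent_basis (p : ℕ) [hp : Fact p.Prime] {k : Type*} [Field k] [CharP k p]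
    (v : k ⊗[ℤ] M) (hv : v ≠ 0) :
    ∃ l : M, (∀ m' : M, l ≠ (p : ℤ) • m') ∧
      ∀ (T : Module.End ℤ M) (t : ℤ), T.baseChange k v = (t : k) • v →
        ∃ m' : M, T l - t • l = (p : ℤ) • m' := by
  classical
  let _ : Algebra (ZMod p) k := ZMod.algebra k p
  obtain ⟨d, rfl⟩ := exists_vec b k v
  -- a nonzero coordinate
  have hex : ∃ j, d j ≠ 0 := by
    by_contra hne
    apply hv
    have : d = fun _ => (0 : k) := funext fun i => not_not.mp fun hi => hne ⟨i, hi⟩
    rw [this, vec_zero]
  obtain ⟨j0, hj0⟩ := hex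
  -- the functional
  obtain ⟨lam, hlam⟩ := Module.Projective.exists_dual_ne_zero (ZMod p) hj0
  have hlin : ∀ (n : ℤ) (x : k), lam ((n : k) * x) = (n : ZMod p) * lam x := by
    intro n x
    have h1 : (n : k) * x = (n : ZMod p) • x := by
      rw [Algebra.smul_def, map_intCast]
    rw [h1, map_smul, smul_eq_mul]
  -- the integer lifts
  let e : ι → ℤ := fun i => ((lam (d i)).val : ℤ)
  have he : ∀ i, ((e i : ℤ) : ZMod p) = lam (d i) := by
    intro i
    simp only [e]
    rw [Int.cast_natCast, ZMod.natCast_zmod_val]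
  refine ⟨∑ i, e i • b i, ?_, ?_⟩
  · intro m' hm'
    have h1 := congrArg (fun x => b.repr x j0) hm'
    simp only [map_sum, map_zsmul, Module.Basis.repr_self, Finsupp.coe_finsetSum,
      Finset.sum_apply, Finsupp.coe_smul, Pi.smul_apply, smul_eq_mul] at h1
    rw [Finset.sum_eq_single j0 (fun i _ hi => by rw [Finsupp.single_eq_of_ne hi.symm, mul_zero])
      (fun h => absurd (Finset.mem_univ j0) h), Finsupp.single_eq_same, mul_one] at h1
    have h2 := congrArg (Int.cast : ℤ → ZMod p) h1
    rw [he, Int.cast_mul, Int.cast_natCast, ZMod.natCast_self, zero_mul] at h2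
    exact hlam h2
  · intro T t hT
    rw [baseChange_vec, vec_smul] at hT
    have hcoord := congrFun (vec_injective b k hT)
    -- the congruences
    have hcong : ∀ j, ∃ c : ℤ, (∑ i, mat b T j i * e i) - t * e j = (p : ℤ) * c := by
      intro j
      have h1 := congrArg lam (hcoord j)
      rw [map_sum] at h1
      simp_rw [hlin] at h1
      have h2 : (((∑ i, mat b T j i * e i) - t * e j : ℤ) : ZMod p) = 0 := by
        push_cast
        simp_rw [he]
        rw [h1, sub_self]
      obtain ⟨c, hc⟩ := (ZMod.intCast_zmod_eq_zero_iff_dvd _ p).mp h2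
      exact ⟨c, hc⟩
    choose c hc using hcong
    refine ⟨∑ j, c j • b j, ?_⟩
    rw [apply_sum, Finset.smul_sum, Finset.smul_sum, ← Finset.sum_sub_distrib]
    refine Finset.sum_congr rfl fun j _ => ?_
    rw [smul_smul, smul_smul, ← sub_smul, hc j]

/-- **Descent to the prime field.** -/
theorem exists_descent {M : Type*} [AddCommGroup M] [Module.Free ℤ M] [Module.Finite ℤ M]
    (p : ℕ) [hp : Fact p.Prime] {k : Type*} [Field k] [CharP k p]
    (v : k ⊗[ℤ] M) (hv : v ≠ 0) :
    ∃ l : M, (∀ m' : M, l ≠ (p : ℤ) • m') ∧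
      ∀ (T : Module.End ℤ M) (t : ℤ), T.baseChange k v = (t : k) • v →
        ∃ m' : M, T l - t • l = (p : ℤ) • m' := by
  classical
  exact exists_descent_basis (Module.Free.chooseBasis ℤ M) p v hv

end Fermat.Agent.T1B.Lift69.Desc
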