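/-
Programme T1B, brick 588 (EMBED44), halves (ii)/(iii), helper69 — **the determinant trick**
(Mathlib + `ES/J/QuadCharpoly8` only).

`k` a field, `V` a `k`-space of dimension 2, `X` any `k`-space, `ρV`, `ρX` representations of a
group `G`, `d : G →* kˣ` a character and `a : G → k` a function with the SAME quadratic relation

  `ρ g + d g • ρ g⁻¹ = a g • 1`         on `V` and on `X`, for all `g`

(output of `ES/ALG/RelDense9.exists_trace_fun_of_dense` applied to `V × X`: Eichler–Shimura relations at
Frobenius elements + density).  If some `ρV g₀` is not a scalar (e.g. `V` irreducible), then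

* `det_trace_eq` : `det (ρV g) = d g` and `tr (ρV g) = a g` for ALL `g` (no Weil pairing needed),
* `hrel_of_common_rel` : `ρX g + det (ρV g) • ρX g⁻¹ = tr (ρV g) • 1` — the hypothesis of
  `Flat83.BLRField.exists_injective_equivariant`.

Proof: for a non-scalar `ρV g` the relation is the characteristic polynomial; `δ = det ρV / d` is a
character trivial off the proper subgroup `Z = {g | ρV g scalar}`, hence trivial.
-/
import Mathlib
import Fermat.Agent.ES.J.QuadCharpoly8

set_option autoImplicit false
set_option linter.unusedSectionVars false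

open Polynomial Module

namespace Fermat.Agent.T1B.Lift69.DetTrick

variable {k : Type*} [Field k] {G : Type*} [Group G]
  {V : Type*} [AddCommGroup V] [Module k V] [Module.Finite k V]
  {X : Type*} [AddCommGroup X] [Module k X]

/-- characteristic polynomial in rank two. -/
theorem charpoly_eq_of_finrank_two (h2 : finrank k V = 2) (f : End k V) :
    f.charpoly = Polynomial.X ^ 2 - C (LinearMap.trace k V f) * Polynomial.X
      + C (LinearMap.det f) := by
  let e : Basis (Fin 2) k V := Module.finBasisOfFinrankEq k V h2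
  rw [← LinearMap.charpoly_toMatrix f e, Matrix.charpoly_fin_two,
    LinearMap.trace_eq_matrix_trace k e f, LinearMap.det_toMatrix e f]

/-- the quadratic relation, multiplied out. -/
theorem quad_of_rel {W : Type*} [AddCommGroup W] [Module k W] (ρ : G →* End k W) (g : G)
    (δ α : k) (h : ρ g + δ • ρ g⁻¹ = α • (1 : End k W)) :
    ρ g * ρ g - α • ρ g + δ • (1 : End k W) = 0 := by
  have h1 : ρ g⁻¹ * ρ g = 1 := by rw [← map_mul, inv_mul_cancel, map_one]
  have h2 : (ρ g + δ • ρ g⁻¹) * ρ g = (α • (1 : End k W)) * ρ g := by rw [h]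
  rw [add_mul, smul_mul_assoc, h1, smul_mul_assoc, one_mul] at h2
  rw [← h2]
  abel

/-- scalars act faithfully on the endomorphisms of a nonzero space. -/
theorem smul_one_eq_zero [Nontrivial V] {c : k} (h : c • (1 : End k V) = 0) : c = 0 := by
  obtain ⟨v, hv⟩ := exists_ne (0 : V)
  have h1 := congrArg (fun f : End k V => f v) h
  simp only [LinearMap.smul_apply, Module.End.one_apply, LinearMap.zero_apply] at h1
  exact (smul_eq_zero.mp h1).resolve_right hv

/-- the non-scalar case: the relation is the characteristic polynomial. -/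
theorem det_trace_of_not_scalar (h2 : finrank k V = 2) (ρV : G →* End k V) (g : G) (δ α : k)
    (h : ρV g + δ • ρV g⁻¹ = α • (1 : End k V))
    (hns : ¬ ∃ c : k, ρV g = c • (1 : End k V)) :
    LinearMap.det (ρV g) = δ ∧ LinearMap.trace k V (ρV g) = α := by
  have hq := quad_of_rel ρV g δ α h
  rcases Fermat.Agent.ES.J.QuadCharpoly8.scalar_or_charpoly h2 (ρV g) α δ hq with hs | hc
  · exact absurd hs hns
  · rw [charpoly_eq_of_finrank_two h2] at hc
    have h0 := congrArg (fun P : k[X] => P.coeff 0) hc
    have h1 := congrArg (fun P : k[X] => P.coeff 1) hc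
    simp only [coeff_add, coeff_sub, coeff_X_pow, coeff_C_mul, coeff_X_zero, coeff_X_one,
      coeff_C_zero, mul_zero, mul_one, sub_zero] at h0 h1
    simp only [coeff_C, if_neg (show (1 : ℕ) ≠ 0 by norm_num),
      if_neg (show (0 : ℕ) ≠ 2 by norm_num), if_neg (show (1 : ℕ) ≠ 2 by norm_num), zero_sub,
      add_zero, zero_add, neg_inj] at h0 h1
    exact ⟨h0, h1⟩

/-- **The determinant trick.** -/
theorem det_trace_eq (h2 : finrank k V = 2) (ρV : G →* End k V) (d : G →* kˣ) (a : G → k)
    (hV : ∀ g, ρV g + ((d g : kˣ) : k) • ρV g⁻¹ = a g • (1 : End k V))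
    (hns : ∃ g₀, ¬ ∃ c : k, ρV g₀ = c • (1 : End k V)) (g : G) :
    LinearMap.det (ρV g) = ((d g : kˣ) : k) ∧ LinearMap.trace k V (ρV g) = a g := by
  have hnt : Nontrivial V := Module.nontrivial_of_finrank_pos (R := k) (by rw [h2]; norm_num)
  obtain ⟨g₀, hg₀⟩ := hns
  by_cases hg : ∃ c : k, ρV g = c • (1 : End k V)
  · obtain ⟨c, hc⟩ := hg
    -- `c ≠ 0`
    have hc0 : c ≠ 0 := by
      rintro rfl
      have h1 : ρV g * ρV g⁻¹ = 1 := by rw [← map_mul, mul_inv_cancel, map_one]
      rw [hc, zero_smul, zero_mul] at h1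
      have h3 : (1 : k) • (1 : End k V) = 0 := by rw [one_smul]; exact h1.symm
      exact one_ne_zero (smul_one_eq_zero h3)
    -- `g * g₀` is not scalar
    have hgg₀ : ¬ ∃ c' : k, ρV (g * g₀) = c' • (1 : End k V) := by
      rintro ⟨c', hc'⟩
      apply hg₀
      refine ⟨c⁻¹ * c', ?_⟩
      rw [map_mul, hc, smul_mul_assoc, one_mul] at hc'
      rw [mul_smul, ← hc', smul_smul, inv_mul_cancel₀ hc0, one_smul]
    have hd1 := (det_trace_of_not_scalar h2 ρV (g * g₀) _ _ (hV (g * g₀)) hgg₀).1
    have hd2 := (det_trace_of_not_scalar h2 ρV g₀ _ _ (hV g₀) hg₀).1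
    rw [map_mul, map_mul, hd2, map_mul, Units.val_mul] at hd1
    have hdet : LinearMap.det (ρV g) = ((d g : kˣ) : k) :=
      mul_right_cancel₀ (Units.ne_zero (d g₀)) hd1
    refine ⟨hdet, ?_⟩
    -- the trace
    have hdet' : c * c = ((d g : kˣ) : k) := by
      rw [← hdet, hc, LinearMap.det_smul, h2, Module.End.one_eq_id, LinearMap.det_id]
      ring
    have hq := quad_of_rel ρV g _ _ (hV g)
    rw [hc] at hq
    have h1 : (c * c - a g * c + ((d g : kˣ) : k)) • (1 : End k V) = 0 := by
      rw [← hq]
      simp only [mul_smul_comm, mul_one, add_smul, sub_smul, smul_smul]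
    have h3 := smul_one_eq_zero h1
    rw [← hdet'] at h3
    have h4 : c * (c + c - a g) = 0 := by linear_combination h3
    have h5 : c + c - a g = 0 := (mul_eq_zero.mp h4).resolve_left hc0
    rw [hc, map_smul, LinearMap.trace_one, h2, smul_eq_mul]
    push_cast
    linear_combination h5
  · exact det_trace_of_not_scalar h2 ρV g _ _ (hV g) hg

/-- **The hypothesis `hrel` of Boston–Lenstra–Ribet** from a common quadratic relation. -/
theorem hrel_of_common_rel (h2 : finrank k V = 2) (ρV : G →* End k V) (ρX : G →* End k X)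
    (d : G →* kˣ) (a : G → k)
    (hV : ∀ g, ρV g + ((d g : kˣ) : k) • ρV g⁻¹ = a g • (1 : End k V))
    (hX : ∀ g, ρX g + ((d g : kˣ) : k) • ρX g⁻¹ = a g • (1 : End k X))
    (hns : ∃ g₀, ¬ ∃ c : k, ρV g₀ = c • (1 : End k V)) (g : G) :
    ρX g + LinearMap.det (ρV g) • ρX g⁻¹ = LinearMap.trace k V (ρV g) • (1 : End k X) := by
  obtain ⟨h1, h3⟩ := det_trace_eq h2 ρV d a hV hns g
  rw [h1, h3]
  exact hX g

end Fermat.Agent.T1B.Lift69.DetTrick
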