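/-
Programme T1B, brick 589 (G3 LIFT0), helper69 — **`p`-divisibility of the `p`-power torsion from the
cardinalities** `#J[p^k] = p^(g k)` (Mathlib only).

* `PDiv p x` : `x` is infinitely `p`-divisible (`x = y 0`, `p • y (k+1) = y k`);
* `exists_nsmul_eq_of_card` : if `#J[p^k] = p^(g k)` for all `k`, then `p : J[p^(k+1)] → J[p^k]` is onto;
* `pdiv_of_card` : under the same hypothesis every `x` with `p^k • x = 0` is infinitely `p`-divisible.

For `J = J₀(N)(ℚ̄) = Pic⁰` of the function field of `X₀(N)` the hypothesis is statement S27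
(`g = 2 · genus`).
-/
import Mathlib

set_option autoImplicit false

namespace Fermat.Agent.T1B.Lift69.PDivCard

/-- `x` is infinitely `p`-divisible. -/
def PDiv (p : ℕ) {J : Type*} [AddCommGroup J] (x : J) : Prop :=
  ∃ y : ℕ → J, y 0 = x ∧ ∀ k, p • y (k + 1) = y k

variable {J : Type*} [AddCommGroup J] (p : ℕ) (g : ℕ) (T : ℕ → AddSubgroup J)

/-- if `#J[p^k] = p^(g k)` for all `k`, then `p : J[p^(k+1)] → J[p^k]` is onto. -/
theorem exists_nsmul_eq_of_card (hp : p.Prime) (hT : ∀ (k : ℕ) (x : J), x ∈ T k ↔ p ^ k • x = 0)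
    (hcard : ∀ k : ℕ, Nat.card (T k) = p ^ (g * k)) (k : ℕ) (x : J) (hx : p ^ k • x = 0) :
    ∃ y : J, p ^ (k + 1) • y = 0 ∧ p • y = x := by
  have hfin : ∀ k, Finite (T k) := fun k =>
    Nat.finite_of_card_ne_zero (by rw [hcard k]; exact pow_ne_zero _ hp.ne_zero)
  have := hfin k
  have := hfin (k + 1)
  have := hfin 1
  -- multiplication by `p`
  let f : T (k + 1) →+ T k :=
    { toFun := fun y => ⟨p • (y : J), by
        rw [hT, ← mul_smul, ← pow_succ]
        exact (hT (k + 1) _).1 y.2⟩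
      map_zero' := Subtype.ext (smul_zero p)
      map_add' := fun y z => Subtype.ext (smul_add p (y : J) (z : J)) }
  have hker : Nat.card f.ker ≤ Nat.card (T 1) := by
    refine Nat.card_le_card_of_injective
      (fun y : f.ker => (⟨((y : T (k + 1)) : J), ?_⟩ : T 1)) ?_
    · rw [hT, pow_one]
      have h := y.2
      rw [AddMonoidHom.mem_ker] at h
      exact congrArg Subtype.val h
    · intro y z hyz
      apply Subtype.ext
      apply Subtype.ext
      have h := congrArg (fun t : T 1 => (t : J)) hyz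
      exact h
  have hsurj : Function.Surjective f := by
    apply AddMonoidHom.surjective_of_card_ker_le_div
    rw [hcard (k + 1), hcard k]
    refine hker.trans ?_
    rw [hcard 1, mul_one, Nat.mul_succ, pow_add, Nat.mul_div_cancel_left _ (pow_pos hp.pos _)]
  obtain ⟨y, hy⟩ := hsurj ⟨x, (hT k x).2 hx⟩
  exact ⟨y, (hT (k + 1) _).1 y.2, congrArg Subtype.val hy⟩

/-- if `#J[p^k] = p^(g k)` for all `k`, every `p`-power torsion element is infinitely
`p`-divisible. -/
theorem pdiv_of_card (hp : p.Prime) (hT : ∀ (k : ℕ) (x : J), x ∈ T k ↔ p ^ k • x = 0)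
    (hcard : ∀ k : ℕ, Nat.card (T k) = p ^ (g * k)) (k₀ : ℕ) (x : J) (hx : p ^ k₀ • x = 0) :
    PDiv p x := by
  classical
  have step : ∀ (k : ℕ) (z : {z : J // p ^ k • z = 0}),
      ∃ y : {y : J // p ^ (k + 1) • y = 0}, p • (y : J) = z := by
    intro k z
    obtain ⟨y, hy1, hy2⟩ := exists_nsmul_eq_of_card p g T hp hT hcard k z.1 z.2
    exact ⟨⟨y, hy1⟩, hy2⟩
  let seq : (k : ℕ) → {z : J // p ^ (k₀ + k) • z = 0} := fun k =>
    Nat.rec (motive := fun k => {z : J // p ^ (k₀ + k) • z = 0}) ⟨x, hx⟩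
      (fun k z => (step (k₀ + k) z).choose) k
  refine ⟨fun k => (seq k : J), rfl, fun k => ?_⟩
  exact (step (k₀ + k) (seq k)).choose_spec

end Fermat.Agent.T1B.Lift69.PDivCard
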