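/-
Programme T1B, brick 588 (EMBED44), E-side (v), helper69 — **an irreducible 2-dimensional
representation containing an involution of determinant `-1` spans `End V`** (Mathlib +
`ES/K/Burnside26`).

`k` a field with `2 ≠ 0`, `V` of dimension 2, `ρ : G →* End_k V` irreducible, `c ∈ G` with
`ρ(c)² = 1`, `det ρ(c) = -1` (complex conjugation: `det ρ = ` cyclotomic character, `χ(c) = -1`).
Then the commutant of `ρ` consists of scalars (`commutant_scalar`) and
`span_k (range ρ) = End_k V` (`span_range_eq_top`): `ρ` is absolutely irreducible.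
-/
import Mathlib
import Fermat.Agent.ES.K.Burnside26

set_option autoImplicit false
set_option linter.unusedSectionVars false

open Module

namespace Fermat.Agent.T1B.Lift69.SpanTop

variable {k : Type*} [Field k] {G : Type*} [Group G]
  {V : Type*} [AddCommGroup V] [Module k V] [Module.Finite k V]

/-- **Schur for an irreducible plane with an odd involution.** -/
theorem commutant_scalar (h2 : finrank k V = 2) (htwo : (2 : k) ≠ 0) (ρ : G →* End k V)
    (hirr : ∀ W : Submodule k V, (∀ g : G, ∀ w ∈ W, ρ g w ∈ W) → W = ⊥ ∨ W = ⊤)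
    (c : G) (hc : ρ c * ρ c = 1) (hdet : LinearMap.det (ρ c) = -1)
    (x : End k V) (hx : ∀ g : G, x * ρ g = ρ g * x) : ∃ a : k, x = a • (1 : End k V) := by
  have hnt : Nontrivial V := Module.nontrivial_of_finrank_pos (R := k) (by rw [h2]; norm_num)
  have hne : (1 : k) ≠ -1 := by
    intro h
    apply htwo
    have : (1 : k) + 1 = 0 := by nth_rw 2 [h]; ring
    rw [← this]; norm_num
  set C : End k V := ρ c with hC
  have hCC : ∀ v : V, C (C v) = v := fun v => by
    have := congrArg (fun f : End k V => f v) hc
    simpa using this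
  -- `C ≠ -1`
  have hCm : C ≠ -1 := by
    intro h
    rw [h] at hdet
    have h1 : LinearMap.det (-1 : End k V) = 1 := by
      have : (-1 : End k V) = (-1 : k) • (1 : End k V) := by simp
      rw [this, LinearMap.det_smul, h2, Module.End.one_eq_id, LinearMap.det_id]
      ring
    rw [h1] at hdet
    exact hne hdet
  -- `C ≠ 1`
  have hC1 : C ≠ 1 := by
    intro h
    rw [h, Module.End.one_eq_id, LinearMap.det_id] at hdet
    exact hne hdet
  -- a fixed vector
  obtain ⟨v, hv⟩ : ∃ v : V, C v + v ≠ 0 := by
    by_contra hcon0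
    have hcon : ∀ w : V, C w + w = 0 := fun w => by_contra fun h => hcon0 ⟨w, h⟩
    apply hCm
    ext w
    have := hcon w
    rw [LinearMap.neg_apply, Module.End.one_apply]
    exact eq_neg_of_add_eq_zero_left this
  set e : V := C v + v with he
  have hCe : C e = e := by rw [he, map_add, hCC, add_comm]
  -- the fixed space
  let F : Submodule k V := LinearMap.ker (C - 1)
  have hmemF : ∀ w : V, w ∈ F ↔ C w = w := by
    intro w
    rw [LinearMap.mem_ker, LinearMap.sub_apply, Module.End.one_apply, sub_eq_zero]
  have heF : e ∈ F := (hmemF e).2 hCe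
  have hFtop : F ≠ ⊤ := by
    intro h
    apply hC1
    ext w
    rw [Module.End.one_apply]
    exact (hmemF w).1 (h ▸ Submodule.mem_top)
  have hFrank : finrank k F = 1 := by
    have h1 : finrank k F < 2 := by
      rw [← h2]
      exact Submodule.finrank_lt hFtop
    have h3 : 0 < finrank k F := by
      rw [Module.finrank_pos_iff_exists_ne_zero]
      exact ⟨⟨e, heF⟩, fun h => hv (congrArg Subtype.val h)⟩
    omega
  -- `x e` is fixed, hence a multiple of `e`
  have hxe : x e ∈ F := by
    rw [hmemF]
    have := congrArg (fun f : End k V => f e) (hx c)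
    simp only [Module.End.mul_apply] at this
    rw [← hC] at this
    rw [← this, hCe]
  obtain ⟨a, ha⟩ : ∃ a : k, a • e = x e := by
    have h1 := (finrank_eq_one_iff_of_nonzero' (⟨e, heF⟩ : F)
      (fun h => hv (congrArg Subtype.val h))).mp hFrank ⟨x e, hxe⟩
    obtain ⟨a, ha⟩ := h1
    exact ⟨a, congrArg Subtype.val ha⟩
  -- the eigenspace is stable
  let W : Submodule k V := LinearMap.ker (x - a • (1 : End k V))
  have hmemW : ∀ w : V, w ∈ W ↔ x w = a • w := by
    intro w
    rw [LinearMap.mem_ker, LinearMap.sub_apply, LinearMap.smul_apply, Module.End.one_apply,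
      sub_eq_zero]
  have hWstab : ∀ g : G, ∀ w ∈ W, ρ g w ∈ W := by
    intro g w hw
    rw [hmemW] at hw ⊢
    have := congrArg (fun f : End k V => f w) (hx g)
    simp only [Module.End.mul_apply] at this
    rw [this, hw, map_smul]
  have heW : e ∈ W := (hmemW e).2 ha.symm
  rcases hirr W hWstab with hbot | htop
  · exfalso
    rw [hbot, Submodule.mem_bot] at heW
    exact hv heW
  · refine ⟨a, ?_⟩
    ext w
    rw [LinearMap.smul_apply, Module.End.one_apply]
    exact (hmemW w).1 (htop ▸ Submodule.mem_top)

/-- **`span (range ρ) = End V`** for an irreducible plane with an odd involution. -/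
theorem span_range_eq_top (h2 : finrank k V = 2) (htwo : (2 : k) ≠ 0) (ρ : G →* End k V)
    (hirr : ∀ W : Submodule k V, (∀ g : G, ∀ w ∈ W, ρ g w ∈ W) → W = ⊥ ∨ W = ⊤)
    (c : G) (hc : ρ c * ρ c = 1) (hdet : LinearMap.det (ρ c) = -1) :
    Submodule.span k (Set.range ρ) = ⊤ := by
  have hnt : Nontrivial V := Module.nontrivial_of_finrank_pos (R := k) (by rw [h2]; norm_num)
  exact Fermat.Agent.ES.K.Burnside26.span_range_eq_top_of_schur ρ hirr
    (fun x hx => commutant_scalar h2 htwo ρ hirr c hc hdet x hx)

/-- irreducibility gives a non-scalar element (the hypothesis `hns` of `DetTrick`). -/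
theorem exists_not_scalar (h2 : finrank k V = 2) (ρ : G →* End k V)
    (hirr : ∀ W : Submodule k V, (∀ g : G, ∀ w ∈ W, ρ g w ∈ W) → W = ⊥ ∨ W = ⊤) :
    ∃ g₀ : G, ¬ ∃ a : k, ρ g₀ = a • (1 : End k V) := by
  have hnt : Nontrivial V := Module.nontrivial_of_finrank_pos (R := k) (by rw [h2]; norm_num)
  by_contra hcon0
  have hcon : ∀ g : G, ∃ a : k, ρ g = a • (1 : End k V) :=
    fun g => by_contra fun h => hcon0 ⟨g, h⟩
  obtain ⟨e, he⟩ := exists_ne (0 : V)
  have hstab : ∀ g : G, ∀ w ∈ Submodule.span k ({e} : Set V),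
      ρ g w ∈ Submodule.span k ({e} : Set V) := by
    intro g w hw
    obtain ⟨a, ha⟩ := hcon g
    rw [ha, LinearMap.smul_apply, Module.End.one_apply]
    exact Submodule.smul_mem _ a hw
  rcases hirr _ hstab with hbot | htop
  · exact he ((Submodule.span_singleton_eq_bot).mp hbot)
  · have h1 : finrank k (Submodule.span k ({e} : Set V)) = 1 := finrank_span_singleton he
    rw [htop, finrank_top, h2] at h1
    omega

end Fermat.Agent.T1B.Lift69.SpanTop
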