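/-
Programme T1B, brick 589 (G3 LIFT0), helper69 — group-theoretic part: **conjugation by the
Atkin–Lehner matrix `w_N = !![0, -1; N, 0]` on `Γ₀(N)` and on homomorphisms `Γ₀(N) → A`.**

* `wMat N`, `wConjMat N A = w A w⁻¹` (for `N ∣ A 1 0`), `wMat_mul`, `det`/`trace`/involution;
* `wConjG : Γ₀(N) ≃* Γ₀(N)` (an involution), `wAdd φ = φ ∘ wConjG` on additive homs, preserving
  parabolic homs (`isParabolicHom_wAdd`);
* **`tdcAdd_wAdd`** : for a prime `ℓ ∤ N`, `wAdd` commutes with the double coset operator `tdcAdd`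
  of `DoubleCoset27` (same telescoping argument as `DoubleCosetPar27.tdcAdd_charInvolution`).

Mathlib + prelude + `DoubleCoset27` only.
-/
import Mathlib
import Fermat.Agent.ES.HEQ.DoubleCoset27

set_option autoImplicit false
set_option linter.unusedSectionVars false

open Matrix CongruenceSubgroup ModularCurve.Period
open scoped MatrixGroups

namespace Fermat.Agent.T1B.Lift69.WConj

open Fermat.Agent.ES.HEQ.DoubleCoset27

/-! ### The matrix `w_N` and conjugation by it -/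

/-- The Atkin–Lehner matrix `w_N = !![0, -1; N, 0]`. -/
def wMat (N : ℕ) : Matrix (Fin 2) (Fin 2) ℤ := !![0, -1; (N : ℤ), 0]

/-- `w_N A w_N⁻¹` (integral when `N ∣ A 1 0`). -/
def wConjMat (N : ℕ) (A : Matrix (Fin 2) (Fin 2) ℤ) : Matrix (Fin 2) (Fin 2) ℤ :=
  !![A 1 1, -(A 1 0 / (N : ℤ)); -((N : ℤ) * A 0 1), A 0 0]

theorem det_wMat (N : ℕ) : (wMat N).det = N := by
  rw [wMat, Matrix.det_fin_two_of]; ring

@[simp] theorem wConjMat_zero_zero (N : ℕ) (A : Matrix (Fin 2) (Fin 2) ℤ) :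
    wConjMat N A 0 0 = A 1 1 := by simp [wConjMat]

@[simp] theorem wConjMat_zero_one (N : ℕ) (A : Matrix (Fin 2) (Fin 2) ℤ) :
    wConjMat N A 0 1 = -(A 1 0 / (N : ℤ)) := by simp [wConjMat]

@[simp] theorem wConjMat_one_zero (N : ℕ) (A : Matrix (Fin 2) (Fin 2) ℤ) :
    wConjMat N A 1 0 = -((N : ℤ) * A 0 1) := by simp [wConjMat]

@[simp] theorem wConjMat_one_one (N : ℕ) (A : Matrix (Fin 2) (Fin 2) ℤ) :
    wConjMat N A 1 1 = A 0 0 := by simp [wConjMat]

/-- The defining identity `w A = (w A w⁻¹) w`. -/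
theorem wMat_mul {N : ℕ} {A : Matrix (Fin 2) (Fin 2) ℤ} (h : (N : ℤ) ∣ A 1 0) :
    wMat N * A = wConjMat N A * wMat N := by
  have hc : (N : ℤ) * (A 1 0 / (N : ℤ)) = A 1 0 := Int.mul_ediv_cancel' h
  ext i j
  fin_cases i <;> fin_cases j <;>
    simp [wMat, wConjMat, Matrix.mul_apply, Fin.sum_univ_two, hc, mul_comm]

theorem det_wConjMat {N : ℕ} {A : Matrix (Fin 2) (Fin 2) ℤ} (h : (N : ℤ) ∣ A 1 0) :
    (wConjMat N A).det = A.det := by
  have hc : A 1 0 / (N : ℤ) * (N : ℤ) = A 1 0 := Int.ediv_mul_cancel h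
  rw [wConjMat, Matrix.det_fin_two_of, Matrix.det_fin_two]
  linear_combination (-(A 0 1)) * hc

theorem trace_wConjMat (N : ℕ) (A : Matrix (Fin 2) (Fin 2) ℤ) :
    (wConjMat N A).trace = A.trace := by
  rw [wConjMat, Matrix.trace_fin_two_of, Matrix.trace_fin_two]; ring

theorem dvd_wConjMat_one_zero (N : ℕ) (A : Matrix (Fin 2) (Fin 2) ℤ) :
    (N : ℤ) ∣ wConjMat N A 1 0 := by
  rw [wConjMat_one_zero]
  exact (dvd_mul_right _ _).neg_right

theorem wConjMat_wConjMat {N : ℕ} (hN : N ≠ 0) {A : Matrix (Fin 2) (Fin 2) ℤ}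
    (h : (N : ℤ) ∣ A 1 0) : wConjMat N (wConjMat N A) = A := by
  have hN' : (N : ℤ) ≠ 0 := by exact_mod_cast hN
  have h1 : -((N : ℤ) * A 0 1) / (N : ℤ) = -(A 0 1) := by
    rw [← mul_neg, Int.mul_ediv_cancel_left _ hN']
  have h2 : (N : ℤ) * (A 1 0 / (N : ℤ)) = A 1 0 := Int.mul_ediv_cancel' h
  ext i j
  fin_cases i <;> fin_cases j
  · simp
  · simp [h1]
  · simp [h2]
  · simp

/-- Right cancellation of `w_N` (`N ≠ 0`). -/
theorem mul_wMat_cancel {N : ℕ} (hN : N ≠ 0) {A B : Matrix (Fin 2) (Fin 2) ℤ}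
    (h : A * wMat N = B * wMat N) : A = B := by
  have hN' : (N : ℤ) ≠ 0 := by exact_mod_cast hN
  have h2 := congrArg (· * (wMat N).adjugate) h
  simp only [Matrix.mul_assoc, Matrix.mul_adjugate, det_wMat] at h2
  ext a b
  have h3 := congrFun (congrFun h2 a) b
  simp only [Matrix.mul_smul, Matrix.mul_one, Matrix.smul_apply, smul_eq_mul] at h3
  exact mul_left_cancel₀ hN' h3

/-- Left cancellation of `w_N` (`N ≠ 0`). -/
theorem wMat_mul_cancel {N : ℕ} (hN : N ≠ 0) {A B : Matrix (Fin 2) (Fin 2) ℤ}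
    (h : wMat N * A = wMat N * B) : A = B := by
  have hN' : (N : ℤ) ≠ 0 := by exact_mod_cast hN
  have h2 := congrArg ((wMat N).adjugate * ·) h
  simp only [← Matrix.mul_assoc, Matrix.adjugate_mul, det_wMat] at h2
  ext a b
  have h3 := congrFun (congrFun h2 a) b
  simp only [Matrix.smul_mul, Matrix.one_mul, Matrix.smul_apply, smul_eq_mul] at h3
  exact mul_left_cancel₀ hN' h3

theorem wConjMat_mul {N : ℕ} (hN : N ≠ 0) {A B : Matrix (Fin 2) (Fin 2) ℤ}
    (hA : (N : ℤ) ∣ A 1 0) (hB : (N : ℤ) ∣ B 1 0) (hAB : (N : ℤ) ∣ (A * B) 1 0) :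
    wConjMat N (A * B) = wConjMat N A * wConjMat N B := by
  apply mul_wMat_cancel hN
  rw [← wMat_mul hAB, ← Matrix.mul_assoc, wMat_mul hA, Matrix.mul_assoc, wMat_mul hB,
    Matrix.mul_assoc]

theorem wConjMat_one {N : ℕ} (hN : N ≠ 0) : wConjMat N 1 = 1 := by
  apply mul_wMat_cancel hN
  rw [← wMat_mul (by simp), Matrix.mul_one, Matrix.one_mul]

/-! ### The automorphism of `Γ₀(N)` -/

section Gamma0

variable {N : ℕ}

theorem dvd_of_mem_Gamma0 {γ : SL(2, ℤ)} (hγ : γ ∈ Gamma0 N) :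
    (N : ℤ) ∣ (γ : Matrix (Fin 2) (Fin 2) ℤ) 1 0 := by
  rw [Gamma0_mem] at hγ
  exact (ZMod.intCast_zmod_eq_zero_iff_dvd _ N).mp hγ

theorem mem_Gamma0_of_dvd {γ : SL(2, ℤ)} (h : (N : ℤ) ∣ (γ : Matrix (Fin 2) (Fin 2) ℤ) 1 0) :
    γ ∈ Gamma0 N := by
  rw [Gamma0_mem]
  exact (ZMod.intCast_zmod_eq_zero_iff_dvd _ N).mpr h

variable [NeZero N]

/-- `w_N γ w_N⁻¹` for `γ ∈ Γ₀(N)`. -/
def wConjG (γ : Gamma0 N) : Gamma0 N :=
  ⟨⟨wConjMat N ((γ : SL(2, ℤ)) : Matrix (Fin 2) (Fin 2) ℤ), by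
      rw [det_wConjMat (dvd_of_mem_Gamma0 γ.2)]; exact (γ : SL(2, ℤ)).2⟩,
    mem_Gamma0_of_dvd (dvd_wConjMat_one_zero N _)⟩

@[simp] theorem coe_wConjG (γ : Gamma0 N) :
    (((wConjG γ : Gamma0 N) : SL(2, ℤ)) : Matrix (Fin 2) (Fin 2) ℤ)
      = wConjMat N ((γ : SL(2, ℤ)) : Matrix (Fin 2) (Fin 2) ℤ) := rfl

theorem wConjG_mul (γ δ : Gamma0 N) : wConjG (γ * δ) = wConjG γ * wConjG δ := by
  apply Subtype.ext
  apply Subtype.ext
  show wConjMat N (((γ * δ : Gamma0 N) : SL(2, ℤ)) : Matrix (Fin 2) (Fin 2) ℤ)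
    = (((wConjG γ * wConjG δ : Gamma0 N) : SL(2, ℤ)) : Matrix (Fin 2) (Fin 2) ℤ)
  rw [Subgroup.coe_mul, Subgroup.coe_mul, Matrix.SpecialLinearGroup.coe_mul,
    Matrix.SpecialLinearGroup.coe_mul, coe_wConjG, coe_wConjG]
  refine wConjMat_mul (NeZero.ne N) (dvd_of_mem_Gamma0 γ.2) (dvd_of_mem_Gamma0 δ.2) ?_
  have := dvd_of_mem_Gamma0 (γ * δ).2
  rwa [Subgroup.coe_mul, Matrix.SpecialLinearGroup.coe_mul] at this

theorem wConjG_wConjG (γ : Gamma0 N) : wConjG (wConjG γ) = γ := by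
  apply Subtype.ext
  apply Subtype.ext
  show wConjMat N (wConjMat N ((γ : SL(2, ℤ)) : Matrix (Fin 2) (Fin 2) ℤ)) = _
  exact wConjMat_wConjMat (NeZero.ne N) (dvd_of_mem_Gamma0 γ.2)

/-- Conjugation by `w_N` as a group automorphism of `Γ₀(N)`. -/
def wConjEquiv : Gamma0 N ≃* Gamma0 N where
  toFun := wConjG
  invFun := wConjG
  left_inv := wConjG_wConjG
  right_inv := wConjG_wConjG
  map_mul' := wConjG_mul

@[simp] theorem wConjEquiv_apply (γ : Gamma0 N) : wConjEquiv γ = wConjG γ := rfl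

@[simp] theorem wConjG_one : wConjG (1 : Gamma0 N) = 1 := map_one (wConjEquiv (N := N))

theorem wConjG_inv (γ : Gamma0 N) : wConjG γ⁻¹ = (wConjG γ)⁻¹ := map_inv (wConjEquiv (N := N)) γ

theorem trace_wConjG (γ : Gamma0 N) :
    (((wConjG γ : Gamma0 N) : SL(2, ℤ)) : Matrix (Fin 2) (Fin 2) ℤ).trace
      = (((γ : Gamma0 N) : SL(2, ℤ)) : Matrix (Fin 2) (Fin 2) ℤ).trace :=
  trace_wConjMat N _

/-- `w γ = (w γ w⁻¹) w` for `γ ∈ Γ₀(N)`. -/
theorem wMat_mul_coe (γ : Gamma0 N) :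
    wMat N * ((γ : SL(2, ℤ)) : Matrix (Fin 2) (Fin 2) ℤ)
      = (((wConjG γ : Gamma0 N) : SL(2, ℤ)) : Matrix (Fin 2) (Fin 2) ℤ) * wMat N :=
  wMat_mul (dvd_of_mem_Gamma0 γ.2)

/-! ### The operator on homomorphisms -/

/-- `φ ↦ φ ∘ (γ ↦ w γ w⁻¹)`. -/
def wAdd {A : Type*} [AddCommGroup A] (φ : Additive (Gamma0 N) →+ A) : Additive (Gamma0 N) →+ A :=
  φ.comp (MonoidHom.toAdditive (wConjEquiv (N := N)).toMonoidHom)

@[simp] theorem wAdd_apply {A : Type*} [AddCommGroup A] (φ : Additive (Gamma0 N) →+ A)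
    (γ : Gamma0 N) : wAdd φ (Additive.ofMul γ) = φ (Additive.ofMul (wConjG γ)) := rfl

theorem wAdd_wAdd {A : Type*} [AddCommGroup A] (φ : Additive (Gamma0 N) →+ A) :
    wAdd (wAdd φ) = φ := by
  refine AddMonoidHom.ext fun γ' => ?_
  obtain ⟨γ, rfl⟩ := Additive.ofMul.surjective γ'
  rw [wAdd_apply, wAdd_apply, wConjG_wConjG]

theorem wAdd_add {A : Type*} [AddCommGroup A] (φ ψ : Additive (Gamma0 N) →+ A) :
    wAdd (φ + ψ) = wAdd φ + wAdd ψ := rfl

theorem wAdd_comp {A B : Type*} [AddCommGroup A] [AddCommGroup B] (f : A →+ B)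
    (φ : Additive (Gamma0 N) →+ A) : wAdd (f.comp φ) = f.comp (wAdd φ) := rfl

theorem isParabolicHom_wAdd {A : Type*} [AddCommGroup A] {φ : Additive (Gamma0 N) →+ A}
    (hφ : IsParabolicHom (Gamma0 N) φ) : IsParabolicHom (Gamma0 N) (wAdd φ) := by
  intro γ hγ
  rw [wAdd_apply]
  apply hφ
  rw [trace_wConjG]
  exact hγ

end Gamma0

/-! ### Commutation with the double coset operators `T_ℓ`, `ℓ ∤ N` -/

section Hecke

variable {p : ℕ} [hp : Fact p.Prime] {N : ℕ} [NeZero N]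

omit hp [NeZero N] in
theorem dvd_beta_one_zero (i : Option (ZMod p)) : (N : ℤ) ∣ beta p i 1 0 := by
  rw [beta_one_zero]; exact dvd_zero _

omit hp in
theorem det_wConjMat_beta (i : Option (ZMod p)) : (wConjMat N (beta p i)).det = p := by
  rw [det_wConjMat (dvd_beta_one_zero i), det_beta]

variable (N) in
/-- `w β_i w⁻¹ = del i * β_{sig i}`. -/
noncomputable def sig (i : Option (ZMod p)) : Option (ZMod p) :=
  (exists_decomp _ (det_wConjMat_beta (N := N) i)).choose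

variable (N) in
noncomputable def del (i : Option (ZMod p)) : SL(2, ℤ) :=
  (exists_decomp _ (det_wConjMat_beta (N := N) i)).choose_spec.choose

theorem wConjMat_beta (i : Option (ZMod p)) :
    wConjMat N (beta p i) = (del N i : Matrix (Fin 2) (Fin 2) ℤ) * beta p (sig N i) :=
  (exists_decomp _ (det_wConjMat_beta (N := N) i)).choose_spec.choose_spec

theorem del_mem_Gamma0 (hpN : ¬ p ∣ N) (i : Option (ZMod p)) : del N i ∈ Gamma0 N := by
  rw [Gamma0_mem]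
  have e10 := congrFun (congrFun (wConjMat_beta (N := N) i) 1) 0
  rw [wConjMat_one_zero] at e10
  simp only [Matrix.mul_apply, Fin.sum_univ_two, beta_one_zero, mul_zero, add_zero] at e10
  have hc := congrArg (Int.cast : ℤ → ZMod N) e10
  push_cast at hc
  rw [ZMod.natCast_self, zero_mul, neg_zero] at hc
  have hcop : Nat.Coprime p N := (Nat.Prime.coprime_iff_not_dvd hp.out).mpr hpN
  have hunit : IsUnit (((beta p (sig N i)) 0 0 : ℤ) : ZMod N) := by
    cases sig N i with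
    | none =>
      simp only [beta_none, Matrix.of_apply, Matrix.cons_val', Matrix.cons_val_zero,
        Matrix.cons_val_fin_one, Int.cast_natCast]
      exact (ZMod.unitOfCoprime p hcop).isUnit
    | some j => simp
  exact (hunit.mul_left_eq_zero).mp hc.symm

/-- `del i` as an element of `Γ₀(N)`. -/
noncomputable def delG (hpN : ¬ p ∣ N) (i : Option (ZMod p)) : Gamma0 N :=
  ⟨del N i, del_mem_Gamma0 hpN i⟩

/-- `w β_i = del_i β_{sig i} w`. -/
theorem wMat_mul_beta (i : Option (ZMod p)) :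
    wMat N * beta p i = (del N i : Matrix (Fin 2) (Fin 2) ℤ) * beta p (sig N i) * wMat N := by
  rw [wMat_mul (dvd_beta_one_zero i), wConjMat_beta]

theorem sig_injective (hpN : ¬ p ∣ N) : Function.Injective (sig N (p := p)) := by
  intro i i' h
  -- `w β_i = g w β_i'` with `g = del_i del_i'⁻¹ ∈ Γ₀(N)`, and `g w = w g'`
  set g : Gamma0 N := delG hpN i * (delG hpN i')⁻¹ with hg
  have h1 : wMat N * beta p i
      = (((g : Gamma0 N) : SL(2, ℤ)) : Matrix (Fin 2) (Fin 2) ℤ) * (wMat N * beta p i') := by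
    rw [wMat_mul_beta i, wMat_mul_beta i', h, ← Matrix.mul_assoc, ← Matrix.mul_assoc]
    congr 2
    have : ((g : Gamma0 N) : SL(2, ℤ)) * del N i' = del N i := by
      rw [hg]
      show (del N i * (del N i')⁻¹) * del N i' = del N i
      group
    rw [← Matrix.SpecialLinearGroup.coe_mul, this]
  have h2 : (((g : Gamma0 N) : SL(2, ℤ)) : Matrix (Fin 2) (Fin 2) ℤ) * wMat N
      = wMat N * (((wConjG g : Gamma0 N) : SL(2, ℤ)) : Matrix (Fin 2) (Fin 2) ℤ) := by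
    rw [wMat_mul_coe, wConjG_wConjG]
  rw [← Matrix.mul_assoc, h2, Matrix.mul_assoc] at h1
  have h3 := wMat_mul_cancel (NeZero.ne N) h1
  have h4 : ((1 : SL(2, ℤ)) : Matrix (Fin 2) (Fin 2) ℤ) * beta p i
      = (((wConjG g : Gamma0 N) : SL(2, ℤ)) : Matrix (Fin 2) (Fin 2) ℤ) * beta p i' := by
    rw [Matrix.SpecialLinearGroup.coe_one, Matrix.one_mul]
    exact h3
  exact (decomp_unique h4).1

/-- `sig` as a permutation. -/
noncomputable def sigEquiv (hpN : ¬ p ∣ N) : Equiv.Perm (Option (ZMod p)) :=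
  haveI : NeZero p := ⟨hp.out.ne_zero⟩
  Equiv.ofBijective (sig N) ((Finite.injective_iff_bijective).mp (sig_injective hpN))

@[simp] theorem sigEquiv_apply (hpN : ¬ p ∣ N) (i : Option (ZMod p)) :
    sigEquiv hpN i = sig N i := rfl

/-- The transport of `perm`/`coc` along conjugation by `w_N`. -/
theorem perm_coc_wConj (hpN : ¬ p ∣ N) (γ : Gamma0 N) (i : Option (ZMod p)) :
    perm ((wConjG γ : Gamma0 N) : SL(2, ℤ)) (sig N i) = sig N (perm (γ : SL(2, ℤ)) i) ∧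
      coc ((wConjG γ : Gamma0 N) : SL(2, ℤ)) (sig N i)
        = (del N i)⁻¹ * ((wConjG (cocG hpN γ i) : Gamma0 N) : SL(2, ℤ))
          * del N (perm (γ : SL(2, ℤ)) i) := by
  apply eq_of_beta_mul
  -- `w β_i γ = w c β_k`
  have h : wMat N * (beta p i * ((γ : SL(2, ℤ)) : Matrix (Fin 2) (Fin 2) ℤ))
      = wMat N * ((coc (γ : SL(2, ℤ)) i : Matrix (Fin 2) (Fin 2) ℤ)
        * beta p (perm (γ : SL(2, ℤ)) i)) :=
    congrArg (fun X => wMat N * X) (beta_mul (γ : SL(2, ℤ)) i)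
  -- left side: `w β_i γ = del_i β_{σ i} (w γ w⁻¹) w`
  have hL : wMat N * (beta p i * ((γ : SL(2, ℤ)) : Matrix (Fin 2) (Fin 2) ℤ))
      = (del N i : Matrix (Fin 2) (Fin 2) ℤ) * (beta p (sig N i)
          * (((wConjG γ : Gamma0 N) : SL(2, ℤ)) : Matrix (Fin 2) (Fin 2) ℤ)) * wMat N := by
    rw [← Matrix.mul_assoc, wMat_mul_beta, Matrix.mul_assoc, wMat_mul_coe, Matrix.mul_assoc,
      Matrix.mul_assoc, Matrix.mul_assoc]
  -- right side: `w c β_k = (w c w⁻¹) del_k β_{σ k} w`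
  have hR : wMat N * ((coc (γ : SL(2, ℤ)) i : Matrix (Fin 2) (Fin 2) ℤ)
        * beta p (perm (γ : SL(2, ℤ)) i))
      = (((wConjG (cocG hpN γ i) : Gamma0 N) : SL(2, ℤ)) : Matrix (Fin 2) (Fin 2) ℤ)
          * ((del N (perm (γ : SL(2, ℤ)) i) : Matrix (Fin 2) (Fin 2) ℤ)
            * beta p (sig N (perm (γ : SL(2, ℤ)) i))) * wMat N := by
    have hc : wMat N * (coc (γ : SL(2, ℤ)) i : Matrix (Fin 2) (Fin 2) ℤ)
        = (((wConjG (cocG hpN γ i) : Gamma0 N) : SL(2, ℤ)) : Matrix (Fin 2) (Fin 2) ℤ)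
          * wMat N := wMat_mul_coe (cocG hpN γ i)
    rw [← Matrix.mul_assoc, hc, Matrix.mul_assoc, wMat_mul_beta, Matrix.mul_assoc,
      Matrix.mul_assoc, Matrix.mul_assoc]
  rw [hL, hR] at h
  have h2 := mul_wMat_cancel (NeZero.ne N) h
  -- cancel `del_i`
  have hu : IsUnit (del N i : Matrix (Fin 2) (Fin 2) ℤ) := by
    rw [Matrix.isUnit_iff_isUnit_det, (del N i).2]; exact isUnit_one
  apply hu.mul_left_cancel
  rw [h2]
  have hX : del N i * ((del N i)⁻¹ * ((wConjG (cocG hpN γ i) : Gamma0 N) : SL(2, ℤ))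
        * del N (perm (γ : SL(2, ℤ)) i))
      = ((wConjG (cocG hpN γ i) : Gamma0 N) : SL(2, ℤ)) * del N (perm (γ : SL(2, ℤ)) i) := by
    group
  rw [← Matrix.mul_assoc (del N i : Matrix (Fin 2) (Fin 2) ℤ),
    ← Matrix.SpecialLinearGroup.coe_mul, hX, Matrix.SpecialLinearGroup.coe_mul, Matrix.mul_assoc]

variable (hpN : ¬ p ∣ N)

/-- **`wAdd` commutes with `T_ℓ`**, pointwise form. -/
theorem tdcAdd_wAdd_apply {A : Type*} [AddCommGroup A] (ψ : Additive (Gamma0 N) →+ A)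
    (γ : Gamma0 N) :
    tdcAdd hpN (wAdd ψ) (Additive.ofMul γ) = wAdd (tdcAdd hpN ψ) (Additive.ofMul γ) := by
  rw [wAdd_apply, tdcAdd_apply, tdcAdd_apply]
  -- reindex the right-hand side by `sig`
  rw [← Equiv.sum_comp (sigEquiv (p := p) hpN)
    (fun i => ψ (Additive.ofMul (cocG hpN (wConjG γ) i)))]
  have hterm : ∀ i : Option (ZMod p),
      ψ (Additive.ofMul (cocG hpN (wConjG γ) (sigEquiv hpN i)))
        = ψ (Additive.ofMul (wConjG (cocG hpN γ i)))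
          + (ψ (Additive.ofMul (delG hpN (permG γ i))) - ψ (Additive.ofMul (delG hpN i))) := by
    intro i
    have hc : cocG hpN (wConjG γ) (sigEquiv hpN i)
        = (delG hpN i)⁻¹ * wConjG (cocG hpN γ i) * delG hpN (permG γ i) := by
      apply Subtype.ext
      rw [coe_cocG, sigEquiv_apply]
      exact (perm_coc_wConj hpN γ i).2
    rw [hc, ofMul_mul, ofMul_mul, ofMul_inv, map_add, map_add, map_neg]
    abel
  simp only [hterm, wAdd_apply, Finset.sum_add_distrib, Finset.sum_sub_distrib]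
  rw [Equiv.sum_comp (permG γ) (fun i => ψ (Additive.ofMul (delG hpN i))), sub_self, add_zero]

/-- **`wAdd` commutes with `T_ℓ`** (`ℓ ∤ N`). -/
theorem tdcAdd_wAdd {A : Type*} [AddCommGroup A] (ψ : Additive (Gamma0 N) →+ A) :
    tdcAdd hpN (wAdd ψ) = wAdd (tdcAdd hpN ψ) :=
  AddMonoidHom.ext fun γ' => tdcAdd_wAdd_apply hpN ψ (Additive.toMul γ')

end Hecke

end Fermat.Agent.T1B.Lift69.WConj
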