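/-
Programme T1B, brick 589 (G3 LIFT0), helper69 — **the operator `U_q^t = W U_q W`** (`q ∣ M`) on
homomorphisms `Γ₀(M) → A`: the double coset operator of `Γ₀(M) diag(q,1) Γ₀(M)` (representatives
`B_j = w_M β_{-j} w_M⁻¹ = !![q, 0; M j, 1]`), defined as the conjugate of `UqOp28.UqAdd`
(representatives `β_j = !![1, j; 0, q]`) by `WConj.wAdd`.

* `cocUt hqM γ j = w (cocU (w γ w⁻¹) j) w⁻¹`, `UtAdd hqM φ γ = ∑ j, φ (cocUt hqM γ j)`;
* `UtMul` on characters `Γ₀(M) →* G`, `UtMul_apply : UtMul χ γ = ∏ j, χ (cocUt hqM γ j)`;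
* `isParabolicHom_UtAdd`, `UtPar` on `parabolicHoms R Γ₀(M) A`;
* `UtAdd_tdcAdd_of` : `UtAdd` commutes with `T_ℓ` (`ℓ ∤ M`) wherever `UqAdd` does.
-/
import Mathlib
import Fermat.Agent.ES.LR.UqOp28
import Fermat.Agent.T1B.Lift69.WConj

set_option autoImplicit false
set_option linter.unusedSectionVars false

open Matrix CongruenceSubgroup ModularCurve.Period
open scoped MatrixGroups

namespace Fermat.Agent.T1B.Lift69.UtOp

open Fermat.Agent.ES.HEQ.DoubleCoset27 Fermat.Agent.ES.HEQ.DoubleCosetPar27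
open Fermat.Agent.ES.LR.UqOp28 Fermat.Agent.T1B.Lift69.WConj

variable {q : ℕ} [hq : Fact q.Prime] {M : ℕ} [NeZero M]

/-- The cocycle of `U_q^t`. -/
noncomputable def cocUt (hqM : q ∣ M) (γ : Gamma0 M) (j : ZMod q) : Gamma0 M :=
  wConjG (cocU hqM (wConjG γ) j)

/-- The operator `U_q^t = W U_q W` on additive homomorphisms `Γ₀(M) → A`. -/
noncomputable def UtAdd (hqM : q ∣ M) {A : Type*} [AddCommGroup A]
    (φ : Additive (Gamma0 M) →+ A) : Additive (Gamma0 M) →+ A :=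
  wAdd (UqAdd hqM (wAdd φ))

theorem UtAdd_apply (hqM : q ∣ M) {A : Type*} [AddCommGroup A] (φ : Additive (Gamma0 M) →+ A)
    (γ : Gamma0 M) :
    UtAdd hqM φ (Additive.ofMul γ) = ∑ j : ZMod q, φ (Additive.ofMul (cocUt hqM γ j)) := rfl

theorem UtAdd_add (hqM : q ∣ M) {A : Type*} [AddCommGroup A] (φ ψ : Additive (Gamma0 M) →+ A) :
    UtAdd hqM (φ + ψ) = UtAdd hqM φ + UtAdd hqM ψ := by
  unfold UtAdd
  rw [wAdd_add, UqAdd_add, wAdd_add]

theorem UtAdd_comp (hqM : q ∣ M) {A B : Type*} [AddCommGroup A] [AddCommGroup B] (f : A →+ B)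
    (φ : Additive (Gamma0 M) →+ A) : UtAdd hqM (f.comp φ) = f.comp (UtAdd hqM φ) := by
  unfold UtAdd
  rw [wAdd_comp, UqAdd_comp, wAdd_comp]

theorem wAdd_UtAdd (hqM : q ∣ M) {A : Type*} [AddCommGroup A] (φ : Additive (Gamma0 M) →+ A) :
    wAdd (UtAdd hqM φ) = UqAdd hqM (wAdd φ) := by
  unfold UtAdd
  rw [wAdd_wAdd]

/-- `UtAdd` preserves parabolic homomorphisms. -/
theorem isParabolicHom_UtAdd (hqM : q ∣ M) {A : Type*} [AddCommGroup A]
    {φ : Additive (Gamma0 M) →+ A} (hφ : IsParabolicHom (Gamma0 M) φ) :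
    IsParabolicHom (Gamma0 M) (UtAdd hqM φ) :=
  isParabolicHom_wAdd (isParabolicHom_UqAdd hqM (isParabolicHom_wAdd hφ))

/-- The operator `U_q^t` on `parabolicHoms R Γ₀(M) A`. -/
noncomputable def UtPar (hqM : q ∣ M) (R : Type*) [Semiring R] (A : Type*) [AddCommGroup A]
    [Module R A] : parabolicHoms R (Gamma0 M) A →ₗ[R] parabolicHoms R (Gamma0 M) A where
  toFun φ := ⟨UtAdd hqM φ.1, isParabolicHom_UtAdd hqM φ.2⟩
  map_add' φ ψ := Subtype.ext (UtAdd_add hqM φ.1 ψ.1)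
  map_smul' c φ := Subtype.ext <| by
    ext γ
    show UtAdd hqM (c • φ.1) γ = c • UtAdd hqM φ.1 γ
    obtain ⟨γ, rfl⟩ := Additive.ofMul.surjective γ
    rw [UtAdd_apply, UtAdd_apply, Finset.smul_sum]
    rfl

@[simp] theorem coe_UtPar (hqM : q ∣ M) (R : Type*) [Semiring R] (A : Type*) [AddCommGroup A]
    [Module R A] (φ : parabolicHoms R (Gamma0 M) A) :
    ((UtPar hqM R A φ : parabolicHoms R (Gamma0 M) A) : Additive (Gamma0 M) →+ A)
      = UtAdd hqM φ.1 := rfl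

/-- `U_q^t` on characters `Γ₀(M) →* G`. -/
noncomputable def UtMul (hqM : q ∣ M) {G : Type*} [CommGroup G] (χ : Gamma0 M →* G) :
    Gamma0 M →* G :=
  MonoidHom.toAdditive.symm (UtAdd hqM (MonoidHom.toAdditive χ))

theorem UtMul_apply (hqM : q ∣ M) {G : Type*} [CommGroup G] (χ : Gamma0 M →* G) (γ : Gamma0 M) :
    UtMul hqM χ γ = ∏ j : ZMod q, χ (cocUt hqM γ j) := by
  show Additive.toMul (UtAdd hqM (MonoidHom.toAdditive χ) (Additive.ofMul γ)) = _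
  rw [UtAdd_apply, toMul_sum]
  rfl

theorem UtMul_one (hqM : q ∣ M) {G : Type*} [CommGroup G] :
    UtMul hqM (1 : Gamma0 M →* G) = 1 := by
  ext γ
  rw [UtMul_apply]
  simp

theorem UtMul_mul (hqM : q ∣ M) {G : Type*} [CommGroup G] (χ ψ : Gamma0 M →* G) :
    UtMul hqM (χ * ψ) = UtMul hqM χ * UtMul hqM ψ := by
  ext γ
  rw [MonoidHom.mul_apply, UtMul_apply, UtMul_apply, UtMul_apply, ← Finset.prod_mul_distrib]
  rfl

/-! ### Commutation with `T_ℓ`, `ℓ ∤ M` -/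

section Commute

variable {l : ℕ} [hl : Fact l.Prime] (hlM : ¬ l ∣ M)

/-- `U_q^t` commutes with `T_ℓ` on `φ` as soon as `U_q` commutes with `T_ℓ` on `W φ`. -/
theorem UtAdd_tdcAdd_of (hqM : q ∣ M) {A : Type*} [AddCommGroup A]
    (φ : Additive (Gamma0 M) →+ A)
    (h : UqAdd hqM (tdcAdd hlM (wAdd φ)) = tdcAdd hlM (UqAdd hqM (wAdd φ))) :
    UtAdd hqM (tdcAdd hlM φ) = tdcAdd hlM (UtAdd hqM φ) := by
  unfold UtAdd
  rw [← tdcAdd_wAdd hlM φ, h, tdcAdd_wAdd hlM]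

end Commute

end Fermat.Agent.T1B.Lift69.UtOp
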