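/-
Programme T1B, brick 589 (G3 LIFT0), helper69 — **`U_q^t` on the Tate module**: if an endomorphism
`f` of `J` corresponds to `U_q^t` (`UtOp.UtMul`) under the Kummer maps of a `KummerSystem`, then
`T_p f` corresponds to `UtOp.UtAdd` on `Hom_par(Γ₀(M), ℤ_p)` and the comparison
`ι₀ = TateCompare11.iota : Λ → T_p J` intertwines `UtPar` on `Λ` with `T_p f`.

Twin of `TateChar11.KummerSystem.tateEquiv_map` / `TateCompare11.map_iota` (there: `T_ℓ`, `ℓ ∤ M`).
-/
import Mathlib
import Fermat.Agent.ES.J.TateCompare11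
import Fermat.Agent.T1B.Lift69.UtOp

set_option autoImplicit false
set_option linter.unusedSectionVars false

open CongruenceSubgroup ModularCurve.Period
open scoped MatrixGroups

noncomputable section

namespace Fermat.Agent.T1B.Lift69.UtTate

open Fermat.Agent.ES.J.TateModule13 Fermat.Agent.ES.J.TateChar11 Fermat.Agent.ES.J.TateCompare11
open Fermat.Agent.ES.HEQ.ParLattice11
open Fermat.Agent.ES.LR.UqOp28 Fermat.Agent.T1B.Lift69.WConj Fermat.Agent.T1B.Lift69.UtOp

variable {p : ℕ} [hp : Fact p.Prime] {q : ℕ} [hq : Fact q.Prime] {M : ℕ} [NeZero M]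
  (hqM : q ∣ M)

/-- `U_q^t` on the characters of `Γ₀(M)`, additively. -/
def UtX : X (Gamma0 M) →+ X (Gamma0 M) where
  toFun χ := Additive.ofMul (UtMul hqM (Additive.toMul χ))
  map_zero' := by
    show Additive.ofMul (UtMul hqM (1 : Gamma0 M →* ℂˣ)) = 0
    rw [UtMul_one]; rfl
  map_add' χ ψ := by
    show Additive.ofMul (UtMul hqM (Additive.toMul χ * Additive.toMul ψ))
      = Additive.ofMul (UtMul hqM (Additive.toMul χ))
        + Additive.ofMul (UtMul hqM (Additive.toMul ψ))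
    rw [UtMul_mul]; rfl

theorem UtX_apply (χ : X (Gamma0 M)) (γ : Gamma0 M) :
    (Additive.toMul (UtX hqM χ)) γ = ∏ j : ZMod q, (Additive.toMul χ) (cocUt hqM γ j) :=
  UtMul_apply hqM (Additive.toMul χ) γ

/-- `fullEquiv` intertwines `U_q^t` on characters with `UtAdd` on `Hom(Γ₀(M), ℤ_p)`. -/
theorem fullEquiv_Ut (x : TateModule p (X (Gamma0 M))) :
    fullEquiv p (Gamma0 M) (map (UtX hqM) x) = UtAdd hqM (fullEquiv p (Gamma0 M) x) := by
  refine AddMonoidHom.ext fun γ => ?_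
  have h := fullEquiv_map_of_prod (p := p) (Finset.univ : Finset (ZMod q))
    (fun j γ => cocUt hqM γ j) (UtX hqM) (fun χ γ => UtX_apply hqM χ γ) x (Additive.toMul γ)
  exact h

variable {J : Type*} [AddCommGroup J] (KS : KummerSystem p (Gamma0 M) J)

/-- **`U_q^t`-equivariance of `tateEquiv`.** -/
theorem tateEquiv_map_Ut (f : J →+ J)
    (hf : ∀ (k : ℕ) (x : ↥(tors J (p ^ k))) (hfx : f (x : J) ∈ tors J (p ^ k)),
      KS.κ k ⟨f (x : J), hfx⟩ = UtX hqM (KS.κ k x))
    (x : TateModule p J) :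
    ((KS.tateEquiv (map f x) : ↥(parabolicHoms ℤ_[p] (Gamma0 M) ℤ_[p])) :
        Additive (Gamma0 M) →+ ℤ_[p])
      = UtAdd hqM (KS.tateEquiv x : Additive (Gamma0 M) →+ ℤ_[p]) := by
  rw [KummerSystem.tateEquiv_apply, KummerSystem.tateEquiv_apply, coe_parEquiv, coe_parEquiv,
    ← fullEquiv_Ut]
  congr 1
  apply TateModule.ext'
  intro k
  show KS.κ k (KummerSystem.comp (map f x) k) = UtX hqM (KS.κ k (KummerSystem.comp x k))
  rw [← hf k (KummerSystem.comp x k)
    (by
      show f (proj k x) ∈ _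
      rw [← proj_map]
      exact KummerSystem.proj_mem_tors _ k)]
  rfl

/-- `castPar` intertwines `UtPar`. -/
theorem castPar_UtPar (R : Type*) [Ring R] (φ : ↥(parabolicHoms ℤ (Gamma0 M) ℤ)) :
    castPar (Gamma0 M) R (UtPar hqM ℤ ℤ φ) = UtPar hqM R R (castPar (Gamma0 M) R φ) := by
  apply Subtype.ext
  rw [coe_UtPar]
  exact (UtAdd_comp hqM (Int.castAddHom R) (φ : Additive (Gamma0 M) →+ ℤ)).symm

/-- **`ι₀` intertwines `U_q^t` on `Λ` with the operator induced on `T_p J`** by an endomorphism `f`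
of `J` which corresponds to `U_q^t` under the Kummer maps. -/
theorem map_iota_Ut (f : J →+ J)
    (hf : ∀ (k : ℕ) (x : ↥(tors J (p ^ k))) (hfx : f (x : J) ∈ tors J (p ^ k)),
      KS.κ k ⟨f (x : J), hfx⟩ = UtX hqM (KS.κ k x))
    (φ : ↥(parabolicHoms ℤ (Gamma0 M) ℤ)) :
    map f (iota KS φ) = iota KS (UtPar hqM ℤ ℤ φ) := by
  apply KS.tateEquiv.injective
  apply Subtype.ext
  rw [tateEquiv_map_Ut hqM KS f hf, tateEquiv_iota, tateEquiv_iota, castPar_UtPar, coe_UtPar]

end Fermat.Agent.T1B.Lift69.UtTate
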